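import Mathlib.Algebra.Polynomial.BigOperators
import Mathlib.Algebra.Polynomial.Roots
import Mathlib.RingTheory.PowerSeries.Basic
import Mathlib.Tactic.FieldSimp
import Mathlib.Tactic.LinearCombination
import Mathlib.Tactic.Ring

/-!
# The coefficients of the little `q`-Legendre polynomials

`∏_{t < n} (p ^ (t + 1) - y) / ∏_{l ≤ n} (1 - p ^ l y) = ∑_{i ≤ n} coef p n i / (1 - p ^ i y)`;
the coefficients are Gaussian binomials up to units.
-/

set_option autoImplicit false

open Finset

namespace FA.AndreJeannin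

section Ring

variable {R S : Type*} [CommRing R] [CommRing S]

/-- `∏_{t < m} (1 - p ^ (t + 1))`. -/
def qprod (p : R) (m : ℕ) : R := ∏ t ∈ range m, (1 - p ^ (t + 1))

/-- The Gaussian binomial coefficient. -/
def qbin (p : R) : ℕ → ℕ → R
  | _, 0 => 1
  | 0, _ + 1 => 0
  | n + 1, k + 1 => qbin p n k + p ^ (k + 1) * qbin p n (k + 1)

theorem qbin_of_lt (p : R) : ∀ {n k : ℕ}, n < k → qbin p n k = 0
  | _, 0, h => absurd h (Nat.not_lt_zero _)
  | 0, _ + 1, _ => rfl
  | n + 1, k + 1, h => by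
    rw [qbin, qbin_of_lt p (show n < k by omega), qbin_of_lt p (show n < k + 1 by omega), mul_zero,
      add_zero]

theorem qbin_self (p : R) (n : ℕ) : qbin p n n = 1 := by
  induction n with
  | zero => rfl
  | succ n ih => rw [qbin, ih, qbin_of_lt p n.lt_succ_self, mul_zero, add_zero]

theorem qbin_add (p : R) (a b : ℕ) :
    qbin p (a + b) a * qprod p a * qprod p b = qprod p (a + b) := by
  induction a generalizing b with
  | zero => simp [qprod, qbin]
  | succ a iha =>
    induction b with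
    | zero => simp [qprod, qbin_self]
    | succ b ihb =>
      have h1 := iha (b + 1)
      rw [show a + 1 + b = a + b + 1 by omega] at ihb
      rw [show a + (b + 1) = a + b + 1 by omega] at h1
      rw [show a + 1 + (b + 1) = a + b + 1 + 1 by omega, qbin]
      simp only [qprod, prod_range_succ] at h1 ihb ⊢
      linear_combination (1 - p ^ (a + 1)) * h1 + p ^ (a + 1) * (1 - p ^ (b + 1)) * ihb

theorem map_qbin (f : R →+* S) (p : R) (n k : ℕ) : f (qbin p n k) = qbin (f p) n k := by
  induction n generalizing k with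
  | zero => cases k <;> simp [qbin]
  | succ n ih => cases k <;> simp [qbin, ih]

/-- `1 + 2 + ⋯ + n`. -/
def tri (n : ℕ) : ℕ := ∑ t ∈ range n, (t + 1)

theorem two_mul_tri (n : ℕ) : 2 * tri n = n * (n + 1) := by
  induction n with
  | zero => rfl
  | succ n ih => rw [tri, sum_range_succ, ← tri]; linarith

/-- The coefficient in integral form; `q` stands for the inverse of `p`. -/
def cint (p q : R) (n i : ℕ) : R :=
  (-1) ^ (n + i) * q ^ (i * n) * p ^ tri i * qbin p (n + i) n * qbin p n i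

theorem map_cint (f : R →+* S) (p q : R) (n i : ℕ) :
    f (cint p q n i) = cint (f p) (f q) n i := by
  simp [cint, map_qbin]

end Ring

section Field

variable {K : Type*} [Field K]

/-- The coefficient of `1 / (1 - p ^ i y)`. -/
def coef (p : K) (n i : ℕ) : K :=
  (∏ t ∈ range n, (p ^ (t + 1) - (p ^ i)⁻¹)) / ∏ l ∈ (range (n + 1)).erase i, (1 - p ^ l / p ^ i)

/-- The little `q`-Legendre polynomial. -/
def pEval (p : K) (n : ℕ) (y : K) : K := ∑ i ∈ range (n + 1), coef p n i * y ^ i

theorem prod_erase_range {M : Type*} [CommMonoid M] (f : ℕ → M) (i m : ℕ) :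
    ∏ l ∈ (range (i + m + 1)).erase i, f l =
      (∏ d ∈ range i, f (i - (d + 1))) * ∏ d ∈ range m, f (i + (d + 1)) := by
  have h := Finset.prod_update_of_mem (show i ∈ range (i + (m + 1)) by simp) f 1
  rw [one_mul, sdiff_singleton_eq_erase, prod_range_add, prod_range_succ' (fun x => _)] at h
  rw [Nat.add_assoc, ← h, add_zero, Function.update_self, mul_one, ← prod_range_reflect]
  congr 1
  · refine prod_congr rfl fun d hd => ?_
    have := mem_range.1 hd
    rw [Function.update_of_ne (by omega)]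
    congr 1
    omega
  · exact prod_congr rfl fun d _ => Function.update_of_ne (by omega) _ _

variable {p : K} (hp : p ≠ 0) (hp1 : ∀ m, 0 < m → p ^ m ≠ 1)
include hp hp1

omit hp in
theorem qprod_ne_zero (m : ℕ) : qprod p m ≠ 0 :=
  prod_ne_zero_iff.2 fun t _ => sub_ne_zero.2 (hp1 _ t.succ_pos).symm

theorem pow_injective : Function.Injective fun i : ℕ => p ^ i := by
  intro a b h
  wlog hab : a ≤ b generalizing a b
  · exact (this h.symm (le_of_not_ge hab)).symm
  obtain ⟨d, rfl⟩ := Nat.exists_eq_add_of_le hab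
  by_contra hne
  refine hp1 d (by omega) (mul_left_cancel₀ (pow_ne_zero a hp) ?_)
  rw [mul_one, ← pow_add]
  exact h.symm

theorem one_sub_div_ne_zero {i l : ℕ} (h : l ≠ i) : 1 - p ^ l / p ^ i ≠ 0 := by
  rw [sub_ne_zero, ne_comm, ne_eq, div_eq_one_iff_eq (pow_ne_zero _ hp)]
  exact fun e => h (pow_injective hp hp1 e)

theorem coef_eq_cint {n i : ℕ} (hi : i ≤ n) : coef p n i = cint p p⁻¹ n i := by
  obtain ⟨m, rfl⟩ := Nat.exists_eq_add_of_le hi
  have hnum : ∀ t, p ^ (t + 1) - (p ^ i)⁻¹ = -(p ^ i)⁻¹ * (1 - p ^ (i + t + 1)) := fun t => by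
    rw [add_assoc, pow_add p i]
    field_simp
    ring
  have hlow : ∀ d ∈ range i, 1 - p ^ (i - (d + 1)) / p ^ i =
      -(p⁻¹ ^ (d + 1)) * (1 - p ^ (d + 1)) := fun d hd => by
    rw [inv_pow, pow_sub₀ _ hp (by have := mem_range.1 hd; omega)]
    field_simp
    ring
  have hhigh : ∀ d, 1 - p ^ (i + (d + 1)) / p ^ i = 1 - p ^ (d + 1) := fun d => by
    rw [pow_add, mul_div_cancel_left₀ _ (pow_ne_zero _ hp)]
  have hX : (∏ t ∈ range (i + m), (1 - p ^ (i + t + 1))) =
      qbin p (i + m + i) (i + m) * qbin p (i + m) i * qprod p i * qprod p m := by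
    refine mul_left_cancel₀ (qprod_ne_zero hp1 i) ?_
    have h1 : qprod p (i + (i + m)) =
        qprod p i * ∏ t ∈ range (i + m), (1 - p ^ (i + t + 1)) := prod_range_add _ _ _
    have h2 := qbin_add p (i + m) i
    have h3 := qbin_add p i m
    rw [add_comm (i + m) i] at h2
    rw [← h1, add_comm (i + m) i]
    linear_combination -h2 - qbin p (i + (i + m)) (i + m) * qprod p i * h3
  have hs : ((-1 : K) ^ i) ^ 2 = 1 := by rw [← pow_mul, mul_comm, pow_mul, neg_one_sq, one_pow]
  rw [coef, div_eq_iff (prod_ne_zero_iff.2 fun l hl =>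
      one_sub_div_ne_zero hp hp1 (ne_of_mem_erase hl)), prod_erase_range, prod_congr rfl hlow,
    prod_congr rfl fun t _ => hnum t, prod_congr rfl fun d _ => hhigh d, prod_mul_distrib,
    prod_mul_distrib, prod_const, card_range, prod_neg, card_range, prod_pow_eq_pow_sum, ← tri,
    ← qprod, ← qprod, hX, neg_pow ((p ^ i)⁻¹), cint]
  have hu : p ^ tri i * p⁻¹ ^ tri i = 1 := by rw [← mul_pow, mul_inv_cancel₀ hp, one_pow]
  have hq : ((p ^ i)⁻¹) ^ (i + m) = p⁻¹ ^ (i * (i + m)) := by rw [← inv_pow, ← pow_mul]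
  rw [hq, pow_add (-1 : K) (i + m) i]
  linear_combination (-((-1) ^ (i + m) * p⁻¹ ^ (i * (i + m)) * qbin p (i + m + i) (i + m) *
    qbin p (i + m) i * qprod p i * qprod p m)) * (p ^ tri i * p⁻¹ ^ tri i * hs + hu)

omit hp1 in
theorem coef_inv {n i : ℕ} (hi : i ≤ n) : coef p⁻¹ n i = coef p n i * (p ^ i)⁻¹ := by
  have hnum : ∀ t, p⁻¹ ^ (t + 1) - ((p⁻¹) ^ i)⁻¹ =
      -p ^ i * (p ^ (t + 1))⁻¹ * (p ^ (t + 1) - (p ^ i)⁻¹) := fun t => by
    rw [inv_pow, inv_pow, inv_inv]
    field_simp
    ring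
  have hden : ∀ l, 1 - p⁻¹ ^ l / p⁻¹ ^ i = -p ^ i * (p ^ l)⁻¹ * (1 - p ^ l / p ^ i) := fun l => by
    rw [inv_pow, inv_pow]
    field_simp
    ring
  have hmem : i ∈ range (n + 1) := mem_range.2 (by omega)
  have h := mul_prod_erase (range (n + 1)) (fun l => (p ^ l)⁻¹) hmem
  rw [prod_range_succ' (fun l => (p ^ l)⁻¹)] at h
  simp only [pow_zero, inv_one, mul_one] at h
  rw [coef, prod_congr rfl fun t _ => hnum t, prod_congr rfl fun l _ => hden l, prod_mul_distrib,
    prod_mul_distrib, prod_mul_distrib, prod_mul_distrib, prod_const, prod_const, card_range,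
    card_erase_of_mem hmem, card_range, Nat.add_sub_cancel, ← h, coef]
  have hE : (∏ l ∈ (range (n + 1)).erase i, (p ^ l)⁻¹) ≠ 0 :=
    prod_ne_zero_iff.2 fun l _ => inv_ne_zero (pow_ne_zero l hp)
  revert hE
  generalize (∏ l ∈ (range (n + 1)).erase i, (p ^ l)⁻¹) = E
  generalize (∏ l ∈ (range (n + 1)).erase i, (1 - p ^ l / p ^ i)) = D
  generalize (∏ t ∈ range n, (p ^ (t + 1) - (p ^ i)⁻¹)) = N
  intro hE
  rw [show (-p ^ i) ^ n * ((p ^ i)⁻¹ * E) * N = ((-p ^ i) ^ n * E) * (N * (p ^ i)⁻¹) by ring,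
    mul_div_mul_left _ _ (mul_ne_zero (pow_ne_zero _ (neg_ne_zero.2 (pow_ne_zero _ hp))) hE),
    div_mul_eq_mul_div]

open Polynomial in
/-- The interpolation identity. -/
theorem interpolation (n : ℕ) :
    (∏ t ∈ range n, (C (p ^ (t + 1)) - X)) =
      ∑ i ∈ range (n + 1), C (coef p n i) * ∏ l ∈ (range (n + 1)).erase i, (1 - C (p ^ l) * X) := by
  refine eq_of_natDegree_lt_card_of_eval_eq _ _ (f := fun j : Fin (n + 1) => (p ^ (j : ℕ))⁻¹)
    (fun a b h => Fin.ext (pow_injective hp hp1 (inv_injective h))) (fun j => ?_) ?_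
  · rw [eval_finsetSum, eval_prod, Finset.sum_eq_single (j : ℕ) (fun i _ hij => ?_)
      (fun h => absurd (mem_range.2 j.2) h)]
    · simp only [eval_mul, eval_C, eval_prod, eval_sub, eval_X, eval_one, ← div_eq_mul_inv, coef]
      rw [div_mul_cancel₀ _ (prod_ne_zero_iff.2 fun l hl =>
        one_sub_div_ne_zero hp hp1 (ne_of_mem_erase hl))]
    · rw [eval_mul, eval_prod, prod_eq_zero (mem_erase.2 ⟨hij.symm, mem_range.2 j.2⟩)
        (by simp [mul_inv_cancel₀ (pow_ne_zero _ hp)]), mul_zero]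
  · rw [Fintype.card_fin, max_lt_iff, Nat.lt_succ_iff, Nat.lt_succ_iff]
    refine ⟨(natDegree_prod_le _ _).trans ?_, natDegree_sum_le_of_forall_le _ _ fun i hi => ?_⟩
    · refine (sum_le_card_nsmul _ _ 1 fun t _ => ?_).trans (by simp)
      exact (natDegree_sub_le _ _).trans (by simp)
    · refine (natDegree_C_mul_le _ _).trans ((natDegree_prod_le _ _).trans ?_)
      refine (sum_le_card_nsmul _ _ 1 fun t _ => ?_).trans
        (by rw [card_erase_of_mem hi]; simp)
      exact (natDegree_sub_le _ _).trans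
        (max_le (by simp) ((natDegree_C_mul_le _ _).trans natDegree_X_le))

/-- The partial fractions. -/
theorem sum_coef_div (n : ℕ) {y : K} (hy : ∀ i ≤ n, 1 - p ^ i * y ≠ 0) :
    ∑ i ∈ range (n + 1), coef p n i / (1 - p ^ i * y) =
      (∏ t ∈ range n, (p ^ (t + 1) - y)) / ∏ l ∈ range (n + 1), (1 - p ^ l * y) := by
  have h := congrArg (Polynomial.eval y) (interpolation hp hp1 n)
  simp only [Polynomial.eval_prod, Polynomial.eval_finsetSum, Polynomial.eval_mul,
    Polynomial.eval_sub, Polynomial.eval_one, Polynomial.eval_C, Polynomial.eval_X] at h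
  have hne : ∀ l ∈ range (n + 1), 1 - p ^ l * y ≠ 0 := fun l hl =>
    hy l (Nat.lt_succ_iff.1 (mem_range.1 hl))
  rw [h, eq_div_iff (prod_ne_zero_iff.2 hne), sum_mul]
  refine sum_congr rfl fun i hi => ?_
  rw [← mul_prod_erase _ _ hi, ← mul_assoc, div_mul_cancel₀ _ (hne i hi)]

open PowerSeries in
/-- The values at the powers of `p` are the Taylor coefficients of the partial fractions. -/
theorem mk_pEval (n : ℕ) :
    PowerSeries.mk (fun k => pEval p n (p ^ k)) =
      (∏ t ∈ range n, (PowerSeries.C (p ^ (t + 1)) - PowerSeries.X)) *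
        ∏ l ∈ range (n + 1), PowerSeries.mk (fun k => (p ^ l) ^ k) := by
  have hgeo : ∀ a : K, (1 - PowerSeries.C a * PowerSeries.X) *
      PowerSeries.mk (fun k => a ^ k) = 1 := fun a => by
    ext k
    cases k with
    | zero => simp
    | succ k =>
      rw [sub_mul, one_mul, map_sub, mul_assoc, PowerSeries.coeff_C_mul,
        PowerSeries.coeff_succ_X_mul, coeff_mk, coeff_mk, PowerSeries.coeff_one,
        if_neg k.succ_ne_zero, pow_succ' a, sub_self]
  have h := congrArg (Polynomial.coeToPowerSeries.ringHom : Polynomial K →+* PowerSeries K)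
    (interpolation hp hp1 n)
  simp only [map_prod, map_sum, map_sub, map_mul, map_one,
    Polynomial.coeToPowerSeries.ringHom_apply, Polynomial.coe_C, Polynomial.coe_X] at h
  rw [h, sum_mul]
  have e : ∀ i ∈ range (n + 1), PowerSeries.C (coef p n i) *
      (∏ l ∈ (range (n + 1)).erase i, (1 - PowerSeries.C (p ^ l) * PowerSeries.X)) *
        ∏ l ∈ range (n + 1), PowerSeries.mk (fun k => (p ^ l) ^ k) =
      PowerSeries.C (coef p n i) * PowerSeries.mk (fun k => (p ^ i) ^ k) := fun i hi => by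
    rw [← mul_prod_erase _ _ hi, mul_assoc, mul_left_comm (∏ _l ∈ _, _), ← prod_mul_distrib,
      prod_congr rfl fun l _ => hgeo (p ^ l), prod_const_one, mul_one]
  rw [sum_congr rfl e]
  ext k
  simp [pEval, ← pow_mul, mul_comm k]

end Field

end FA.AndreJeannin
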