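import Fermat.Agent.AndreJeannin.Series

/-!
# The size of the conjugate linear form

At `q = -φ ^ 2` the value `1 / (1 - q ^ m)` is `-∑ p ^ (k m)`, `k ≥ 1`, so the conjugate rational
part is a sum of difference quotients of `P`, which is bounded at the powers of `p`.
-/

set_option autoImplicit false

noncomputable section

open Finset Real

namespace FA.AndreJeannin

theorem two_le_abs_qg : 2 ≤ |qg| := by
  rw [qg_eq_inv, abs_inv, le_inv_comm₀ (by norm_num) (by linarith [abs_pg_bounds.1])]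
  linarith [abs_pg_bounds.2]

theorem abs_pg_mul_abs_qg : |pg| * |qg| = 1 := by rw [← abs_mul, pg_mul_qg, abs_one]

theorem one_le_abs_qg_pow (m : ℕ) : 1 ≤ |qg| ^ m := one_le_pow₀ (by linarith [two_le_abs_qg])

theorem golden_conj_bounds : 3 / 5 ≤ |goldenConj| ∧ |goldenConj| ≤ 2 / 3 := by
  rw [abs_of_neg goldenConj_neg, ← one_sub_goldenConj]
  constructor <;> linarith [golden_bounds.1, golden_bounds.2]

theorem le_tri (n : ℕ) : n ≤ tri n := by
  induction n with
  | zero => rfl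
  | succ n ih => rw [tri, sum_range_succ, ← tri]; omega

theorem abs_coef_le {n i : ℕ} (hi : i ≤ n) :
    |coef pg n i| * |qg| ^ tri i ≤ 4 ^ n * |qg| ^ (i * n) := by
  obtain ⟨m, rfl⟩ := Nat.exists_eq_add_of_le hi
  set s := |qg|
  have hs : 2 ≤ s := two_le_abs_qg
  have hinv : ∀ j : ℕ, (pg ^ j)⁻¹ = qg ^ j := fun j => by rw [qg_eq_inv, inv_pow]
  have hnum : ∀ t ∈ range (i + m), |pg ^ (t + 1) - (pg ^ i)⁻¹| ≤ 2 * s ^ i := fun t _ => by
    have := abs_sub (pg ^ (t + 1)) ((pg ^ i)⁻¹)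
    rw [hinv, abs_pow, abs_pow] at this
    rw [hinv]
    linarith [abs_pg_pow_le_one (t + 1), one_le_abs_qg_pow i]
  have hlow : ∀ d ∈ range i, s ^ (d + 1) / 2 ≤ |1 - pg ^ (i - (d + 1)) / pg ^ i| := fun d hd => by
    have h : pg ^ (i - (d + 1)) / pg ^ i = qg ^ (d + 1) := by
      rw [div_eq_mul_inv, hinv]
      conv_lhs => rw [← Nat.sub_add_cancel (show d + 1 ≤ i by simp only [mem_range] at hd; omega),
        Nat.add_sub_cancel, pow_add, ← mul_assoc, ← mul_pow, pg_mul_qg, one_pow, one_mul]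
    rw [h, abs_sub_comm]
    have := abs_sub_abs_le_abs_sub (qg ^ (d + 1)) 1
    rw [abs_pow, abs_one] at this
    have := le_self_pow₀ (show (1 : ℝ) ≤ s by linarith) (Nat.add_one_ne_zero d)
    linarith
  have hhigh : ∀ d ∈ range m, (1 : ℝ) / 2 ≤ |1 - pg ^ (i + (d + 1)) / pg ^ i| := fun d _ => by
    rw [pow_add, mul_div_cancel_left₀ _ (pow_ne_zero _ pg_ne_zero)]
    have h1 := abs_sub_abs_le_abs_sub 1 (pg ^ (d + 1))
    have h2 := abs_pg_pow_anti (show 1 ≤ d + 1 by omega)
    rw [abs_one, abs_pow] at h1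
    rw [pow_one] at h2
    linarith [abs_pg_bounds.2]
  have hden : s ^ tri i / 2 ^ (i + m) ≤
      |∏ l ∈ (range (i + m + 1)).erase i, (1 - pg ^ l / pg ^ i)| := by
    rw [abs_prod, prod_erase_range]
    refine le_trans (le_of_eq ?_) (mul_le_mul (prod_le_prod (fun d _ => by positivity) hlow)
      (prod_le_prod (fun d _ => by norm_num) hhigh) (prod_nonneg fun d _ => by norm_num)
      (prod_nonneg fun d _ => abs_nonneg _))
    rw [prod_div_distrib, prod_pow_eq_pow_sum, prod_const, prod_const, card_range, card_range,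
      ← tri, div_pow, one_pow, div_mul_div_comm, mul_one, ← pow_add]
  have hpos : 0 < |∏ l ∈ (range (i + m + 1)).erase i, (1 - pg ^ l / pg ^ i)| :=
    lt_of_lt_of_le (by positivity) hden
  rw [coef, abs_div, div_mul_eq_mul_div, div_le_iff₀ hpos, abs_prod]
  refine (mul_le_mul_of_nonneg_right ((prod_le_prod (fun t _ => abs_nonneg _) hnum).trans
    (le_of_eq (by rw [prod_const, card_range, mul_pow, ← pow_mul]))) (by positivity)).trans
    (le_trans (le_of_eq ?_) (mul_le_mul_of_nonneg_left hden (by positivity)))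
  rw [show (4 : ℝ) ^ (i + m) = 2 ^ (i + m) * 2 ^ (i + m) by rw [← mul_pow]; norm_num]
  field_simp

theorem abs_pEval_le {n : ℕ} {y : ℝ} (hy : |y| * |qg| ^ n ≤ |qg|) :
    |pEval pg n y| ≤ (n + 1) * 4 ^ n := by
  rw [pEval]
  refine (abs_sum_le_sum_abs _ _).trans ((sum_le_card_nsmul _ _ ((4 : ℝ) ^ n) fun i hi => ?_).trans
    (by simp))
  rw [abs_mul, abs_pow]
  have h := abs_coef_le (Nat.lt_succ_iff.1 (mem_range.1 hi))
  refine le_of_mul_le_mul_right ?_ (show 0 < |qg| ^ tri i from pow_pos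
    (by linarith [two_le_abs_qg]) _)
  calc |coef pg n i| * |y| ^ i * |qg| ^ tri i = |coef pg n i| * |qg| ^ tri i * |y| ^ i := by ring
    _ ≤ 4 ^ n * |qg| ^ (i * n) * |y| ^ i := by gcongr
    _ = 4 ^ n * (|y| * |qg| ^ n) ^ i := by ring
    _ ≤ 4 ^ n * |qg| ^ tri i := by
        gcongr
        exact (pow_le_pow_left₀ (by positivity) hy i).trans
          (pow_le_pow_right₀ (by linarith [two_le_abs_qg]) (le_tri i))

theorem abs_coeff_C_sub_X_mul {M : ℝ} (hM : 0 ≤ M) {c : ℝ} (hc : |c| ≤ 1)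
    (f : PowerSeries ℝ) (hf : ∀ k, |PowerSeries.coeff k f| ≤ M * 2 ^ k) (k : ℕ) :
    |PowerSeries.coeff k ((PowerSeries.C c - PowerSeries.X) * f)| ≤ 2 * M * 2 ^ k := by
  have h1 : |c * PowerSeries.coeff k f| ≤ M * 2 ^ k := by
    rw [abs_mul]
    exact (mul_le_of_le_one_left (abs_nonneg _) hc).trans (hf k)
  rw [sub_mul, map_sub, PowerSeries.coeff_C_mul]
  cases k with
  | zero => rw [PowerSeries.coeff_zero_X_mul, sub_zero]; linarith [pow_zero (2 : ℝ)]
  | succ k =>
    rw [PowerSeries.coeff_succ_X_mul]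
    refine (abs_sub _ _).trans ?_
    have h2 := hf k
    rw [pow_succ] at h1 ⊢
    nlinarith [show (0 : ℝ) ≤ M * 2 ^ k by positivity]

theorem abs_coeff_geometric_mul {M : ℝ} (hM : 0 ≤ M) {c : ℝ} (hc : |c| ≤ 1)
    (f : PowerSeries ℝ) (hf : ∀ k, |PowerSeries.coeff k f| ≤ M * 2 ^ k) (k : ℕ) :
    |PowerSeries.coeff k (f * PowerSeries.mk fun j => c ^ j)| ≤ 2 * M * 2 ^ k := by
  rw [PowerSeries.coeff_mul, Nat.sum_antidiagonal_eq_sum_range_succ_mk]
  refine (abs_sum_le_sum_abs _ _).trans ?_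
  have hterm : ∀ j ∈ range k.succ, |PowerSeries.coeff j f *
      PowerSeries.coeff (k - j) (PowerSeries.mk fun l => c ^ l)| ≤ M * 2 ^ j := fun j _ => by
    rw [PowerSeries.coeff_mk, abs_mul, abs_pow]
    exact (mul_le_of_le_one_right (abs_nonneg _) (pow_le_one₀ (abs_nonneg _) hc)).trans (hf j)
  refine (sum_le_sum hterm).trans ?_
  rw [← mul_sum, geom_sum_eq (by norm_num), pow_succ]
  nlinarith [show (0 : ℝ) ≤ M * 2 ^ k by positivity]

/-- `P` is bounded at the powers of `p`. -/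
theorem abs_pEval_pow (n k : ℕ) : |pEval pg n (pg ^ k)| ≤ 2 * 8 ^ n := by
  have h8 : (n + 1 : ℝ) * 4 ^ n ≤ 2 * 8 ^ n := by
    have h : (n + 1 : ℝ) ≤ 2 ^ n := by exact_mod_cast Nat.lt_two_pow_self
    have e : (8 : ℝ) ^ n = 2 ^ n * 4 ^ n := by rw [← mul_pow]; norm_num
    rw [e]
    nlinarith [show (0 : ℝ) < 4 ^ n by positivity, show (0 : ℝ) < 2 ^ n by positivity]
  rcases le_or_gt n k with h | h
  · refine (abs_pEval_le ?_).trans h8
    rw [abs_pow, ← Nat.sub_add_cancel h, pow_add, mul_assoc, ← mul_pow, abs_pg_mul_abs_qg, one_pow,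
      mul_one]
    exact (abs_pg_pow_le_one _).trans (by linarith [two_le_abs_qg])
  · have key : ∀ m, m ≤ n + 1 → ∀ j, |PowerSeries.coeff j
        ((∏ t ∈ range n, (PowerSeries.C (pg ^ (t + 1)) - PowerSeries.X)) *
          ∏ l ∈ range m, PowerSeries.mk (fun i => (pg ^ l) ^ i))| ≤ 2 ^ n * 2 ^ m * 2 ^ j := by
      intro m
      induction m with
      | zero =>
        intro _
        rw [range_zero, prod_empty, mul_one, pow_zero, mul_one]
        generalize n = N
        induction N with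
        | zero => intro j; cases j <;> simp [PowerSeries.coeff_one]
        | succ N ih =>
          intro j
          rw [prod_range_succ, mul_comm _ (PowerSeries.C _ - _), pow_succ' (2 : ℝ) N]
          exact abs_coeff_C_sub_X_mul (by positivity) (by rw [abs_pow]; exact abs_pg_pow_le_one _)
            _ ih j
      | succ m ih =>
        intro hm j
        rw [prod_range_succ, ← mul_assoc, show (2 : ℝ) ^ n * 2 ^ (m + 1) * 2 ^ j =
          2 * (2 ^ n * 2 ^ m) * 2 ^ j by ring]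
        exact abs_coeff_geometric_mul (by positivity)
          (by rw [abs_pow]; exact abs_pg_pow_le_one _) _ (ih (by omega)) j
    have := key (n + 1) le_rfl k
    rw [← mk_pEval pg_ne_zero pg_pow_ne_one, PowerSeries.coeff_mk] at this
    refine this.trans ?_
    calc (2 : ℝ) ^ n * 2 ^ (n + 1) * 2 ^ k ≤ 2 ^ n * 2 ^ (n + 1) * 2 ^ n :=
          mul_le_mul_of_nonneg_left (pow_le_pow_right₀ (by norm_num) h.le) (by positivity)
      _ = 2 * 8 ^ n := by
          rw [show (8 : ℝ) = 2 * 2 * 2 by norm_num, mul_pow, mul_pow]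
          ring

theorem pEval_qg (n : ℕ) (y : ℝ) : pEval qg n y = pEval pg n (y * qg) := by
  refine sum_congr rfl fun i hi => ?_
  rw [qg_eq_inv, coef_inv pg_ne_zero (Nat.lt_succ_iff.1 (mem_range.1 hi)), mul_pow,
    inv_pow]
  ring

theorem abs_pEval_qg_pow (n k : ℕ) : |pEval qg n (pg ^ (k + 1))| ≤ 2 * 8 ^ n := by
  rw [pEval_qg, pow_succ, mul_assoc, pg_mul_qg, mul_one]
  exact abs_pEval_pow n k

theorem abs_pEval_qg_x (n : ℕ) :
    |pEval qg n (goldenConj * (qg ^ n)⁻¹)| ≤ 2 * 8 ^ n := by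
  rw [pEval_qg]
  refine (abs_pEval_le ?_).trans ?_
  · rw [abs_mul, abs_mul, abs_inv, abs_pow, mul_right_comm |goldenConj|, mul_assoc,
      inv_mul_cancel₀ (pow_ne_zero _ (by linarith [two_le_abs_qg])), mul_one]
    exact mul_le_of_le_one_left (abs_nonneg _) (golden_conj_bounds.2.trans (by norm_num))
  · have h : (n + 1 : ℝ) ≤ 2 ^ n := by exact_mod_cast Nat.lt_two_pow_self
    have e : (8 : ℝ) ^ n = 2 ^ n * 4 ^ n := by rw [← mul_pow]; norm_num
    rw [e]
    nlinarith [show (0 : ℝ) < 4 ^ n by positivity, show (0 : ℝ) < 2 ^ n by positivity]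

/-- The `k`th difference quotient. -/
def diffQuot (n k : ℕ) : ℝ := ∑ i ∈ range (n + 1), coef qg n i *
  ∑ l ∈ range i, (goldenConj * (qg ^ n)⁻¹) ^ l * (pg ^ (i - l)) ^ (k + 1)

theorem hasSum_diffQuot (n : ℕ) :
    HasSum (diffQuot n) (-aSum qg (goldenConj * (qg ^ n)⁻¹) n) := by
  rw [aSum, ← sum_neg_distrib]
  refine hasSum_sum fun i _ => ?_
  simp only [← mul_neg, ← sum_neg_distrib]
  refine (hasSum_sum fun l hl => ?_).mul_left _
  have hd : i - l ≠ 0 := by have := mem_range.1 hl; omega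
  set u := pg ^ (i - l) with hu
  have hu1 : |u| < 1 := by
    rw [hu, abs_pow]
    exact pow_lt_one₀ (abs_nonneg _) (by linarith [abs_pg_bounds.2]) hd
  have hu0 : u ≠ 0 := pow_ne_zero _ pg_ne_zero
  have h1 : (1 : ℝ) - u ≠ 0 := by linarith [le_abs_self u]
  have h2 : u - 1 ≠ 0 := by linarith [le_abs_self u]
  have h := ((hasSum_geometric_of_abs_lt_one hu1).mul_left u).mul_left
    ((goldenConj * (qg ^ n)⁻¹) ^ l)
  have e : -((goldenConj * (qg ^ n)⁻¹) ^ l / (1 - qg ^ (i - l))) =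
      (goldenConj * (qg ^ n)⁻¹) ^ l * (u * (1 - u)⁻¹) := by
    generalize (goldenConj * (qg ^ n)⁻¹) ^ l = z
    rw [qg_eq_inv, inv_pow, ← hu]
    field_simp
    ring
  rw [e]
  exact h.congr_fun fun k => by rw [pow_succ']

theorem diffQuot_mul (n k : ℕ) :
    diffQuot n k * (goldenConj * (qg ^ n)⁻¹ - pg ^ (k + 1)) = pg ^ (k + 1) *
      (pEval qg n (goldenConj * (qg ^ n)⁻¹) - pEval qg n (pg ^ (k + 1))) := by
  rw [diffQuot, pEval, pEval, ← sum_sub_distrib, sum_mul, mul_sum]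
  refine sum_congr rfl fun i _ => ?_
  rw [← mul_sub, ← geom_sum₂_mul, mul_assoc, mul_left_comm (pg ^ (k + 1)), ← mul_assoc (pg ^ _)]
  congr 2
  rw [mul_sum]
  refine sum_congr rfl fun l hl => ?_
  have hl' := mem_range.1 hl
  rw [← pow_mul, ← pow_mul, mul_left_comm, ← pow_add]
  congr 2
  obtain ⟨e, rfl⟩ := Nat.exists_eq_add_of_le hl'
  rw [show l.succ + e - l = e + 1 by omega, show l.succ + e - 1 - l = e by omega]
  ring

/-- The weight `3` below `n`, then geometric decay. -/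
theorem abs_diffQuot_le (n k : ℕ) : |diffQuot n k| ≤
    4 * 8 ^ n * if k < n then 3 else 5 * |pg| ^ (k + 1 - n) := by
  set u := pg ^ (k + 1) with hu
  set x := goldenConj * (qg ^ n)⁻¹ with hx
  have hx' : x = goldenConj * pg ^ n := by rw [hx, qg_eq_inv, inv_pow, inv_inv]
  set w : ℝ := if k < n then 3 else 5 * |pg| ^ (k + 1 - n) with hw
  have hw0 : 0 ≤ w := by rw [hw]; split_ifs <;> positivity
  have hu0 : 0 < |u| := abs_pos.2 (pow_ne_zero _ pg_ne_zero)
  have hgap : |u| ≤ w * |x - u| := by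
    rw [hw]
    split_ifs with h
    · have h1 : |x| ≤ 2 / 3 * |u| := by
        rw [hx', hu, abs_mul, abs_pow, abs_pow]
        exact mul_le_mul golden_conj_bounds.2 (abs_pg_pow_anti (by omega))
          (pow_nonneg (abs_nonneg _) _) (by norm_num)
      have := abs_sub_abs_le_abs_sub u x
      rw [abs_sub_comm x u]
      linarith
    · have e : k + 1 = n + (k + 1 - n) := by omega
      have hfac : x - u = pg ^ n * (goldenConj - pg ^ (k + 1 - n)) := by
        rw [hx', hu, mul_sub, ← pow_add, ← e]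
        ring
      have h1 : 1 / 5 ≤ |goldenConj - pg ^ (k + 1 - n)| := by
        have h2 := abs_sub_abs_le_abs_sub goldenConj (pg ^ (k + 1 - n))
        have h3 := abs_pg_pow_anti (show 1 ≤ k + 1 - n by omega)
        rw [abs_pow] at h2
        rw [pow_one] at h3
        linarith [golden_conj_bounds.1, abs_pg_bounds.2]
      rw [hfac, hu, abs_mul, abs_pow, abs_pow]
      conv_lhs => rw [e, pow_add, ← mul_one (_ * _)]
      calc |pg| ^ n * |pg| ^ (k + 1 - n) * 1
          ≤ |pg| ^ n * |pg| ^ (k + 1 - n) * (5 * |goldenConj - pg ^ (k + 1 - n)|) :=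
            mul_le_mul_of_nonneg_left (by linarith) (by positivity)
        _ = _ := by ring
  have hne : 0 < |x - u| := by
    refine (abs_nonneg _).lt_of_ne fun h => ?_
    rw [← h, mul_zero] at hgap
    linarith
  refine le_of_mul_le_mul_right ?_ hne
  rw [← abs_mul, diffQuot_mul, ← hu, abs_mul, mul_assoc]
  calc |u| * |pEval qg n x - pEval qg n u| ≤ (w * |x - u|) * (4 * 8 ^ n) := by
        refine mul_le_mul hgap ((abs_sub _ _).trans ?_) (abs_nonneg _) (by positivity)
        have := abs_pEval_qg_x n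
        have := abs_pEval_qg_pow n k
        rw [← hx] at *
        rw [← hu] at *
        linarith
    _ = _ := by ring

theorem abs_aSum_qg (n : ℕ) :
    |aSum qg (goldenConj * (qg ^ n)⁻¹) n| ≤ 4 * 8 ^ n * (3 * n + 4) := by
  set g : ℕ → ℝ := fun k => 4 * 8 ^ n * if k < n then 3 else 5 * |pg| ^ (k + 1 - n)
  have hg2 : HasSum (fun j => g (j + n)) (4 * 8 ^ n * (5 * (|pg| * (1 - |pg|)⁻¹))) := by
    refine ((((hasSum_geometric_of_lt_one (abs_nonneg pg) (by linarith [abs_pg_bounds.2])).mul_left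
      |pg|).mul_left 5).mul_left (4 * 8 ^ n)).congr_fun fun j => ?_
    simp only [g, show ¬ j + n < n by omega, if_false, show j + n + 1 - n = j + 1 by omega,
      pow_succ']
  have hg := hasSum_nat_add_iff (f := g) n |>.1 hg2
  have h := tsum_of_norm_bounded hg fun k => (Real.norm_eq_abs _).le.trans (abs_diffQuot_le n k)
  rw [(hasSum_diffQuot n).tsum_eq, norm_neg, Real.norm_eq_abs] at h
  refine h.trans ?_
  rw [sum_congr rfl fun k hk => show g k = 4 * 8 ^ n * 3 by simp [g, mem_range.1 hk], sum_const,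
    card_range, nsmul_eq_mul]
  have hr : |pg| * (1 - |pg|)⁻¹ ≤ 2 / 3 := by
    rw [← div_eq_mul_inv, div_le_iff₀ (by linarith [abs_pg_bounds.2])]
    linarith [abs_pg_bounds.2]
  nlinarith [show (0 : ℝ) < 8 ^ n by positivity]

theorem abs_shift_qg (n : ℕ) : |shift qg goldenConj n| ≤ 3 * n := by
  rw [shift]
  refine (abs_sum_le_sum_abs _ _).trans ((sum_le_card_nsmul _ _ (3 : ℝ) fun k _ => ?_).trans
    (by simp [mul_comm]))
  have h := abs_sub_abs_le_abs_sub (qg ^ k) goldenConj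
  rw [abs_sub_comm (qg ^ k) goldenConj, abs_pow] at h
  have h1 := one_le_abs_qg_pow k
  rw [abs_div, abs_pow, div_le_iff₀ (by linarith [golden_conj_bounds.2])]
  linarith [golden_conj_bounds.2]

theorem tri_add_sum (n : ℕ) : tri n + ∑ k ∈ range n, k = n * n := by
  rw [tri, ← sum_add_distrib]
  induction n with
  | zero => rfl
  | succ n ih => rw [sum_range_succ, ih]; ring

theorem abs_dProd_qg (n : ℕ) : |dProd qg goldenConj n| ≤ 4 ^ n * |qg| ^ (n * n) := by
  have h1 : ∀ t ∈ range n, |1 - qg ^ (t + 1)| ≤ 2 * |qg| ^ (t + 1) := fun t _ => by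
    have := abs_sub (1 : ℝ) (qg ^ (t + 1))
    rw [abs_one, abs_pow] at this
    linarith [one_le_abs_qg_pow (t + 1)]
  have h2 : ∀ k ∈ range n, |goldenConj - qg ^ k| ≤ 2 * |qg| ^ k := fun k _ => by
    have := abs_sub goldenConj (qg ^ k)
    rw [abs_pow] at this
    linarith [one_le_abs_qg_pow k, golden_conj_bounds.2]
  rw [dProd, qprod, abs_mul, abs_prod, abs_prod]
  refine (mul_le_mul (prod_le_prod (fun t _ => abs_nonneg _) h1)
    (prod_le_prod (fun k _ => abs_nonneg _) h2) (prod_nonneg fun k _ => abs_nonneg _)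
    (prod_nonneg fun t _ => by positivity)).trans (le_of_eq ?_)
  rw [prod_mul_distrib, prod_mul_distrib, prod_const, card_range, prod_pow_eq_pow_sum,
    prod_pow_eq_pow_sum, mul_mul_mul_comm, ← mul_pow, ← pow_add, ← tri, tri_add_sum]
  norm_num

/-- The conjugate form is not too large. -/
theorem form_conj_bound (n : ℕ) (l d : ℝ) (hd : 0 ≤ d) :
    |form qg goldenConj l d n| ≤ 2 * (|l| + 20 * d) * ((n + 1) * 32 ^ n) * |qg| ^ (n * n) := by
  rw [form, abs_mul]
  refine (mul_le_mul (abs_dProd_qg n) ((abs_sub _ _).trans (add_le_add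
    (le_of_eq_of_le (abs_mul _ _) (mul_le_mul_of_nonneg_left (abs_pEval_qg_x n) (abs_nonneg l)))
    (le_of_eq_of_le (abs_mul _ _) (mul_le_mul_of_nonneg_left ((abs_add_le _ _).trans (add_le_add
      (le_of_eq_of_le (abs_mul _ _) (mul_le_mul (abs_pEval_qg_x n) (abs_shift_qg n) (abs_nonneg _)
        (by positivity))) (abs_aSum_qg n))) (abs_nonneg d))))) (abs_nonneg _)
    (by positivity)).trans ?_
  rw [abs_of_nonneg hd, show (32 : ℝ) ^ n = 4 ^ n * 8 ^ n by rw [← mul_pow]; norm_num]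
  have h : |l| * 2 + d * (6 * n + 4 * (3 * n + 4)) ≤ 2 * (|l| + 20 * d) * (n + 1) := by
    have : (0 : ℝ) ≤ n := Nat.cast_nonneg n
    nlinarith [abs_nonneg l, mul_nonneg hd this, mul_nonneg (abs_nonneg l) this]
  nlinarith [mul_le_mul_of_nonneg_left h (show (0 : ℝ) ≤ 4 ^ n * 8 ^ n * |qg| ^ (n * n) by
    positivity)]

end FA.AndreJeannin
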