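import Fermat.Agent.AndreJeannin.RealEstimate
import Fermat.Agent.AndreJeannin.ConjEstimate

/-!
# André-Jeannin's theorem

The cleared forms are integers of `ℚ(√5)` with nonzero norm tending to zero.
-/

set_option autoImplicit false

noncomputable section

open Finset Real

namespace FA.AndreJeannin

section Ring

variable {R S : Type*} [CommRing R] [CommRing S]

/-- The linear form without divisions; `q` stands for the inverse of `p`. -/
def formInt (p q a l d : R) (n : ℕ) : R :=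
  qprod p n * (∏ k ∈ range n, (a - p ^ k)) * l *
      (∑ i ∈ range (n + 1), cint p q n i * (a * q ^ n) ^ i) -
    d * ((∑ i ∈ range (n + 1), cint p q n i * (a * q ^ n) ^ i) * qprod p n *
        (∑ k ∈ range n, p ^ k * ∏ j ∈ (range n).erase k, (a - p ^ j)) +
      (∏ k ∈ range n, (a - p ^ k)) * ∑ i ∈ range (n + 1), cint p q n i *
        ∑ j ∈ range i, (a * q ^ n) ^ j * ∏ t ∈ (range n).erase (i - j - 1), (1 - p ^ (t + 1)))

theorem map_formInt (f : R →+* S) (p q a l d : R) (n : ℕ) :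
    f (formInt p q a l d n) = formInt (f p) (f q) (f a) (f l) (f d) n := by
  simp [formInt, qprod, map_cint]

end Ring

section Field

variable {K : Type*} [Field K] {p : K} (hp : p ≠ 0) (hp1 : ∀ m, 0 < m → p ^ m ≠ 1)
include hp hp1

theorem form_eq_formInt {a : K} (ha : ∀ k, a - p ^ k ≠ 0) (l d : K) (n : ℕ) :
    form p a l d n = formInt p p⁻¹ a l d n := by
  have e1 : (∏ k ∈ range n, (a - p ^ k)) * shift p a n =
      ∑ k ∈ range n, p ^ k * ∏ j ∈ (range n).erase k, (a - p ^ j) := by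
    rw [shift, mul_sum]
    refine sum_congr rfl fun k hk => ?_
    have := ha k
    rw [← mul_prod_erase _ _ hk]
    field_simp
  have e2 : qprod p n * aSum p (a * p⁻¹ ^ n) n = ∑ i ∈ range (n + 1), cint p p⁻¹ n i *
      ∑ j ∈ range i, (a * p⁻¹ ^ n) ^ j * ∏ t ∈ (range n).erase (i - j - 1), (1 - p ^ (t + 1)) := by
    rw [aSum, mul_sum]
    refine sum_congr rfl fun i hi => ?_
    rw [mul_left_comm, coef_eq_cint hp hp1 (Nat.lt_succ_iff.1 (mem_range.1 hi))]
    congr 1
    rw [mul_sum]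
    refine sum_congr rfl fun j hj => ?_
    have hi' := mem_range.1 hi
    have hj' := mem_range.1 hj
    have hne : (1 : K) - p ^ (i - j) ≠ 0 := sub_ne_zero.2 (hp1 _ (by omega)).symm
    rw [qprod, ← mul_prod_erase _ _ (show i - j - 1 ∈ range n from mem_range.2 (by omega)),
      show i - j - 1 + 1 = i - j by omega]
    field_simp
  have e3 : pEval p n (a * p⁻¹ ^ n) =
      ∑ i ∈ range (n + 1), cint p p⁻¹ n i * (a * p⁻¹ ^ n) ^ i :=
    sum_congr rfl fun i hi => by rw [coef_eq_cint hp hp1 (Nat.lt_succ_iff.1 (mem_range.1 hi))]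
  rw [form, dProd, formInt, ← inv_pow, ← e1, ← e2, ← e3]
  ring

end Field

/-- The integers of `ℚ(√5)` as pairs of conjugates. -/
def goldenPairs : Subring (ℝ × ℝ) where
  carrier := {u | ∃ a b : ℤ, u = (a + b * goldenRatio, a + b * goldenConj)}
  mul_mem' := by
    rintro _ _ ⟨a, b, rfl⟩ ⟨c, e, rfl⟩
    refine ⟨a * c + b * e, a * e + b * c + b * e, ?_⟩
    rw [Prod.mk_mul_mk, Prod.mk.injEq]
    constructor <;> push_cast
    · linear_combination ((b : ℝ) * e) * goldenRatio_sq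
    · linear_combination ((b : ℝ) * e) * goldenConj_sq
  one_mem' := ⟨1, 0, by simp [Prod.ext_iff]⟩
  add_mem' := by
    rintro _ _ ⟨a, b, rfl⟩ ⟨c, e, rfl⟩
    refine ⟨a + c, b + e, ?_⟩
    rw [Prod.mk_add_mk, Prod.mk.injEq]
    constructor <;> push_cast <;> ring
  zero_mem' := ⟨0, 0, by simp [Prod.ext_iff]⟩
  neg_mem' := by
    rintro _ ⟨a, b, rfl⟩
    refine ⟨-a, -b, ?_⟩
    rw [Prod.neg_mk, Prod.mk.injEq]
    constructor <;> push_cast <;> ring

theorem one_le_norm {u : ℝ × ℝ} (hu : u ∈ goldenPairs) (h0 : u.1 ≠ 0) : 1 ≤ |u.1 * u.2| := by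
  obtain ⟨a, b, rfl⟩ := hu
  have e : ((a : ℝ) + b * goldenRatio) * (a + b * goldenConj) = ((a ^ 2 + a * b - b ^ 2 : ℤ) : ℝ) :=
    by push_cast; linear_combination (a * b : ℝ) * goldenRatio_add_goldenConj +
      ((b : ℝ) ^ 2) * goldenRatio_mul_goldenConj
  have hne : (a : ℝ) + b * goldenConj ≠ 0 := fun h => by
    rcases eq_or_ne b 0 with rfl | hb
    · simp at h h0
      exact h0 (by exact_mod_cast h)
    · exact (goldenConj_irrational.intCast_mul hb).intCast_add a |>.ne_zero h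
  have h : (a ^ 2 + a * b - b ^ 2 : ℤ) ≠ 0 := fun h => mul_ne_zero h0 hne (by rw [e, h]; simp)
  rw [e, ← Int.cast_abs]
  exact_mod_cast Int.one_le_abs h

theorem goldenConj_sub_ne_zero (k : ℕ) : goldenConj - qg ^ k ≠ 0 := fun h => by
  have := congrArg abs (sub_eq_zero.1 h)
  rw [abs_pow] at this
  linarith [one_le_abs_qg_pow k, golden_conj_bounds.2]

theorem qg_pow_ne_one (m : ℕ) (hm : 0 < m) : qg ^ m ≠ 1 := fun h => by
  rw [qg_eq_inv, inv_pow, inv_eq_one] at h
  exact pg_pow_ne_one m hm h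

/-- `∑ p ^ k / (φ - p ^ k)` is not in `ℚ(√5)`. -/
theorem fibL_not_mem (d : ℕ) (hd : 0 < d) (A B : ℤ) : (d : ℝ) * fibL ≠ A + B * goldenRatio := by
  intro h
  set l' : ℝ := (A : ℝ) + B * goldenConj with hl'
  set K : ℝ := 20 * d * (|l'| + 20 * d) with hK
  obtain ⟨n, hn, hn16⟩ : ∃ n, K < 2 ^ n ∧ 16 ≤ n := by
    obtain ⟨m, hm⟩ := pow_unbounded_of_one_lt K (show (1 : ℝ) < 2 by norm_num)
    exact ⟨m + 16, hm.trans_le (pow_le_pow_right₀ (by norm_num) (by omega)), by omega⟩
  obtain ⟨z0, hz⟩ := form_real_bounds n hn16 _ _ (by exact_mod_cast hd) h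
  have hz' := form_conj_bound n l' d (Nat.cast_nonneg d)
  -- the pair of conjugate forms is an algebraic integer
  let P : goldenPairs := ⟨(pg, qg), -2, 1, Prod.ext
    (by rw [pg, goldenConj_sq, ← one_sub_goldenConj]; push_cast; ring)
    (by rw [qg, goldenRatio_sq, ← one_sub_goldenRatio]; push_cast; ring)⟩
  let Q : goldenPairs := ⟨(qg, pg), -1, -1, Prod.ext
    (by rw [qg, goldenRatio_sq]; push_cast; ring) (by rw [pg, goldenConj_sq]; push_cast; ring)⟩
  let a : goldenPairs := ⟨(goldenRatio, goldenConj), 0, 1, by simp⟩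
  let l : goldenPairs := ⟨((A : ℝ) + B * goldenRatio, l'), A, B, rfl⟩
  set Z := formInt P Q a l (d : goldenPairs) n with hZ
  have h1 : (Z : ℝ × ℝ).1 = form pg goldenRatio ((A : ℝ) + B * goldenRatio) d n := by
    rw [form_eq_formInt pg_ne_zero pg_pow_ne_one golden_sub_ne_zero, ← qg_eq_inv]
    simpa [P, Q, a, l] using map_formInt ((RingHom.fst ℝ ℝ).comp goldenPairs.subtype) P Q a l
      (d : goldenPairs) n
  have h2 : (Z : ℝ × ℝ).2 = form qg goldenConj l' d n := by
    rw [form_eq_formInt (qg_eq_inv ▸ inv_ne_zero pg_ne_zero) qg_pow_ne_one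
      goldenConj_sub_ne_zero, show qg⁻¹ = pg by rw [qg_eq_inv, inv_inv]]
    simpa [P, Q, a, l] using map_formInt ((RingHom.snd ℝ ℝ).comp goldenPairs.subtype) P Q a l
      (d : goldenPairs) n
  have hnorm := one_le_norm Z.2 (by rwa [h1])
  rw [h1, h2, abs_mul] at hnorm
  have hnorm' := hnorm.trans (mul_le_mul hz hz' (abs_nonneg _) (by positivity))
  have h2n : (n + 1 : ℝ) ≤ 2 ^ n := by exact_mod_cast Nat.lt_two_pow_self
  have hrs : |pg| ^ (tri n + n * (n + 1)) * |qg| ^ (n * n) ≤ |pg| ^ tri n := by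
    rw [show tri n + n * (n + 1) = tri n + n + n * n by ring, pow_add, mul_assoc, ← mul_pow,
      abs_pg_mul_abs_qg, one_pow, mul_one]
    exact abs_pg_pow_anti (by omega)
  have hT : |pg| ^ tri n ≤ (|pg| ^ 8) ^ n := by
    rw [← pow_mul]
    exact abs_pg_pow_anti (by nlinarith [two_mul_tri n])
  have h8 : 384 * |pg| ^ 8 ≤ 1 / 2 :=
    (mul_le_mul_of_nonneg_left (pow_le_pow_left₀ (abs_nonneg _) abs_pg_bounds.2 8)
      (by norm_num)).trans (by norm_num)
  have hfin : (1 : ℝ) ≤ K * (1 / 2) ^ n := by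
    refine hnorm'.trans ?_
    calc 10 * (d : ℝ) * 6 ^ n * |pg| ^ (tri n + n * (n + 1)) *
          (2 * (|l'| + 20 * d) * ((n + 1) * 32 ^ n) * |qg| ^ (n * n))
        = K * ((n + 1) * (6 ^ n * 32 ^ n)) *
            (|pg| ^ (tri n + n * (n + 1)) * |qg| ^ (n * n)) := by rw [hK]; ring
      _ ≤ K * (2 ^ n * (6 ^ n * 32 ^ n)) * (|pg| ^ 8) ^ n := by
          have := hrs.trans hT
          gcongr
      _ = K * (384 * |pg| ^ 8) ^ n := by
          rw [← mul_pow, ← mul_pow, mul_pow (384 : ℝ)]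
          norm_num
          ring
      _ ≤ _ := by gcongr
  rw [div_pow, one_pow, ← mul_div_assoc, mul_one, le_div_iff₀ (by positivity), one_mul] at hfin
  linarith

theorem hasSum_inv_fib :
    HasSum (fun n : ℕ => (1 : ℝ) / Nat.fib n) (√5 * fibL) := by
  have hφ : 1 < |goldenRatio| := by
    rw [abs_of_pos goldenRatio_pos]
    exact one_lt_goldenRatio
  have h := (hasSum_pSum hφ 0).mul_left √5
  have e : pSum goldenRatio 0 = fibL := tsum_congr fun k => by rw [zero_add, mul_one]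
  rw [e] at h
  rw [← hasSum_nat_add_iff' 1]
  simp only [sum_range_one, Nat.fib_zero, Nat.cast_zero, div_zero, sub_zero]
  refine h.congr_fun fun j => ?_
  have hφp : goldenRatio * pg = goldenConj := by
    rw [pg]
    linear_combination (-goldenConj) * goldenRatio_mul_goldenConj
  have hne := pow_ne_zero (j + 1) goldenRatio_ne_zero
  rw [zero_add, Real.coe_fib_eq, ← hφp, mul_pow, one_div_div, inv_pow, ← mul_div_assoc,
    ← mul_one_sub, ← div_div, div_eq_mul_inv √5 (goldenRatio ^ (j + 1))]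

/-- André-Jeannin's theorem. -/
theorem sum_inv_fib_ne (a b : ℚ) : ∑' n : ℕ, (1 : ℝ) / Nat.fib n ≠ a + b * √5 := by
  rw [hasSum_inv_fib.tsum_eq]
  intro h
  refine fibL_not_mem (5 * a.den * b.den) (by positivity)
    (5 * a.den * b.num - a.num * b.den) (2 * (a.num * b.den)) ?_
  have h5 : √5 * √5 = 5 := Real.mul_self_sqrt (by norm_num)
  have hφ : 2 * goldenRatio - 1 = √5 := by rw [goldenRatio]; ring
  have ha : (a : ℝ) * a.den = a.num := by exact_mod_cast Rat.mul_den_eq_num a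
  have hb : (b : ℝ) * b.den = b.num := by exact_mod_cast Rat.mul_den_eq_num b
  refine mul_left_cancel₀ (show √5 ≠ 0 by positivity) ?_
  push_cast
  linear_combination (5 * (a.den : ℝ) * b.den) * h + (5 * (b.den : ℝ)) * ha +
    (5 * (a.den : ℝ) * √5) * hb - ((a.num : ℝ) * b.den * √5) * hφ -
    ((a.num : ℝ) * b.den) * h5

end FA.AndreJeannin
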