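import Fermat.Agent.AndreJeannin.Series

/-!
# The size of the linear form

`|form| ≤ 6 ^ n ⬝ d ⬝ 10 r ^ (T + n (n + 1))` with `r = ψ ^ 2` and `T = n (n + 1) / 2`; it is not
zero.
-/

set_option autoImplicit false

noncomputable section

open Finset Real

namespace FA.AndreJeannin

/-- The value of the Padé form. -/
def padeJ (x : ℝ) (n : ℕ) : ℝ := ∑ i ∈ range (n + 1), coef pg n i * pSum x i

theorem abs_golden_xv (n : ℕ) :
    |goldenRatio * (pg ^ n)⁻¹|⁻¹ ≤ |pg| ^ n ∧ 1 < |goldenRatio * (pg ^ n)⁻¹| := by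
  have hφ : 8 / 5 ≤ goldenRatio := golden_bounds.1
  have hr := abs_pg_bounds.1
  rw [abs_mul, abs_inv, abs_pow, abs_of_pos goldenRatio_pos, mul_inv, inv_inv]
  refine ⟨mul_le_of_le_one_left (pow_nonneg (abs_nonneg _) _) (inv_le_one_of_one_le₀ (by linarith)),
    ?_⟩
  have h1 := one_le_inv₀ (pow_pos (show 0 < |pg| by linarith) n) |>.2 (abs_pg_pow_le_one n)
  nlinarith

theorem golden_sub_ne_zero (k : ℕ) : goldenRatio - pg ^ k ≠ 0 := fun h => by
  have := congrArg abs (sub_eq_zero.1 h)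
  rw [abs_pow, abs_of_pos goldenRatio_pos] at this
  linarith [abs_pg_pow_le_one k, golden_bounds.1]

theorem pSum_zero_golden (n : ℕ) :
    pSum (goldenRatio * (pg ^ n)⁻¹) 0 = fibL - shift pg goldenRatio n := by
  have hx := abs_golden_xv n
  have hs : Summable fun k : ℕ => pg ^ k / (goldenRatio - pg ^ k) := by
    have := summable_pSum (x := goldenRatio)
      (by rw [abs_of_pos goldenRatio_pos]; exact one_lt_goldenRatio) 0
    simpa using this
  have h := hs.sum_add_tsum_nat_add n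
  rw [fibL, ← h, shift, add_sub_cancel_left, pSum]
  refine tsum_congr fun k => ?_
  have := x_sub_ne_zero hx.2 k
  have := golden_sub_ne_zero (k + n)
  have := pow_ne_zero n pg_ne_zero
  rw [zero_add, mul_one, pow_add]
  field_simp

theorem form_real (n : ℕ) (l d : ℝ) (h : d * fibL = l) :
    form pg goldenRatio l d n =
      dProd pg goldenRatio n * d * padeJ (goldenRatio * (pg ^ n)⁻¹) n := by
  have hx := abs_golden_xv n
  rw [padeJ, sum_congr rfl fun i _ => by rw [pSum_eq hx.2 i, mul_sub, ← mul_assoc],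
    sum_sub_distrib, ← sum_mul]
  rw [pSum_zero_golden, form, aSum, pEval, ← h]
  ring

/-- The coefficients of the expansion in `1 / x`. -/
def expCoef (n j : ℕ) : ℝ := ∑ i ∈ range (n + 1), coef pg n i / (1 - pg ^ (i + j + 1))

theorem hasSum_padeJ {x : ℝ} (hx : 1 < |x|) (n : ℕ) :
    HasSum (fun j => x⁻¹ ^ (j + 1) * expCoef n j) (padeJ x n) := by
  simp only [expCoef, mul_sum]
  refine hasSum_sum fun i _ => ?_
  exact ((hasSum_pSum hx i).mul_left (coef pg n i)).congr_fun fun j => by ring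

theorem expCoef_eq (n j : ℕ) : expCoef n j =
    (∏ t ∈ range n, (pg ^ (t + 1) - pg ^ (j + 1))) /
      ∏ l ∈ range (n + 1), (1 - pg ^ l * pg ^ (j + 1)) := by
  rw [← sum_coef_div pg_ne_zero pg_pow_ne_one n fun i _ => ?_, expCoef]
  · refine sum_congr rfl fun i _ => ?_
    rw [← pow_add, add_assoc]
  · rw [← pow_add, sub_ne_zero]
    exact (pg_pow_ne_one _ (by omega)).symm

theorem expCoef_of_lt {n j : ℕ} (h : j < n) : expCoef n j = 0 := by
  rw [expCoef_eq, prod_eq_zero (mem_range.2 h) (sub_self _), zero_div]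

theorem abs_expCoef_bounds {n j : ℕ} (h : n ≤ j) :
    |pg| ^ tri n / 9 ≤ |expCoef n j| ∧ |expCoef n j| ≤ 9 * |pg| ^ tri n := by
  obtain ⟨a1, a2⟩ := prod_abs_one_sub_bounds (range n) (fun t => pg ^ (j - t)) (by
    refine le_trans ?_ (sum_pow_le (abs_nonneg pg) abs_pg_bounds.2 n)
    rw [← sum_range_reflect (fun l => |pg| ^ (l + 1)) n]
    refine sum_le_sum fun t ht => ?_
    rw [abs_pow]
    exact abs_pg_pow_anti (by have := mem_range.1 ht; omega))
  obtain ⟨b1, b2⟩ := prod_abs_one_sub_bounds (range (n + 1)) (fun l => pg ^ l * pg ^ (j + 1)) (by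
    refine le_trans ?_ (sum_pow_le (abs_nonneg pg) abs_pg_bounds.2 (n + 1))
    refine sum_le_sum fun l _ => ?_
    rw [← pow_add, abs_pow]
    exact abs_pg_pow_anti (by omega))
  have e : ∏ t ∈ range n, |pg ^ (t + 1) - pg ^ (j + 1)| =
      |pg| ^ tri n * ∏ t ∈ range n, |1 - pg ^ (j - t)| := by
    rw [tri, ← prod_pow_eq_pow_sum, ← prod_mul_distrib]
    refine prod_congr rfl fun t ht => ?_
    have := mem_range.1 ht
    rw [← abs_pow, ← abs_mul, mul_sub, mul_one, ← pow_add, show t + 1 + (j - t) = j + 1 by omega]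
  rw [expCoef_eq, abs_div, abs_prod, abs_prod, e]
  have hT : 0 ≤ |pg| ^ tri n := pow_nonneg (abs_nonneg _) _
  constructor
  · rw [le_div_iff₀ (by linarith)]
    calc |pg| ^ tri n / 9 * ∏ l ∈ range (n + 1), |1 - pg ^ l * pg ^ (j + 1)|
        ≤ |pg| ^ tri n / 9 * 3 := by gcongr
      _ = |pg| ^ tri n * (1 / 3) := by ring
      _ ≤ _ := by gcongr
  · rw [div_le_iff₀ (by linarith)]
    calc |pg| ^ tri n * ∏ t ∈ range n, |1 - pg ^ (j - t)| ≤ |pg| ^ tri n * 3 := by gcongr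
      _ = 9 * |pg| ^ tri n * (1 / 3) := by ring
      _ ≤ _ := by gcongr

theorem padeJ_bounds {x : ℝ} (n : ℕ) (hx : 1 < |x|) (hsmall : |x|⁻¹ ≤ 1 / 100) :
    padeJ x n ≠ 0 ∧ |padeJ x n| ≤ 10 * |pg| ^ tri n * |x|⁻¹ ^ (n + 1) := by
  have h := hasSum_padeJ hx n
  rw [← hasSum_nat_add_iff' (n + 1), sum_range_succ, sum_eq_zero fun j hj => by
    rw [expCoef_of_lt (mem_range.1 hj), mul_zero], zero_add] at h
  set X := |x|⁻¹ with hX
  have hX0 : 0 < X := inv_pos.2 (by linarith)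
  have hg := (hasSum_geometric_of_lt_one hX0.le (show X < 1 by linarith)).mul_left
    (9 * |pg| ^ tri n * X ^ (n + 2))
  have hrest := tsum_of_norm_bounded hg (f := fun j => x⁻¹ ^ (j + (n + 1) + 1) *
      expCoef n (j + (n + 1))) fun j => by
    rw [Real.norm_eq_abs, abs_mul, abs_pow, abs_inv, ← hX]
    refine (mul_le_mul_of_nonneg_left (abs_expCoef_bounds (show n ≤ j + (n + 1) by omega)).2
      (pow_nonneg hX0.le _)).trans (le_of_eq ?_)
    ring
  rw [h.tsum_eq, Real.norm_eq_abs] at hrest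
  have hinv : (1 - X)⁻¹ ≤ 100 / 99 := by
    rw [inv_le_iff_one_le_mul₀ (by linarith)]
    linarith
  have hX1 : 0 ≤ (1 - X)⁻¹ := inv_nonneg.2 (by linarith)
  have hT : 0 < |pg| ^ tri n := pow_pos (by linarith [abs_pg_bounds.1]) _
  have hXn : 0 < X ^ (n + 1) := pow_pos hX0 _
  have hR : |padeJ x n - x⁻¹ ^ (n + 1) * expCoef n n| ≤ |pg| ^ tri n * X ^ (n + 1) / 10 := by
    refine hrest.trans ?_
    calc 9 * |pg| ^ tri n * X ^ (n + 2) * (1 - X)⁻¹
        = 9 * |pg| ^ tri n * X ^ (n + 1) * (X * (1 - X)⁻¹) := by ring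
      _ ≤ 9 * |pg| ^ tri n * X ^ (n + 1) * (1 / 100 * (100 / 99)) := by gcongr
      _ ≤ _ := by nlinarith [mul_pos hT hXn]
  obtain ⟨f1, f2⟩ := abs_expCoef_bounds (le_refl n)
  have hlead : |x⁻¹ ^ (n + 1) * expCoef n n| = X ^ (n + 1) * |expCoef n n| := by
    rw [abs_mul, abs_pow, abs_inv]
  refine ⟨fun h0 => ?_, ?_⟩
  · rw [h0, zero_sub, abs_neg, hlead] at hR
    nlinarith [mul_le_mul_of_nonneg_left f1 hXn.le, mul_pos hT hXn]
  · have h1 := abs_sub_abs_le_abs_sub (padeJ x n) (x⁻¹ ^ (n + 1) * expCoef n n)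
    rw [hlead] at h1
    nlinarith [mul_le_mul_of_nonneg_left f2 hXn.le, mul_pos hT hXn]

theorem abs_dProd_real (n : ℕ) :
    |dProd pg goldenRatio n| ≤ 6 ^ n ∧ dProd pg goldenRatio n ≠ 0 := by
  refine ⟨?_, mul_ne_zero (qprod_ne_zero pg_pow_ne_one n)
    (prod_ne_zero_iff.2 fun k _ => golden_sub_ne_zero k)⟩
  have h1 : ∀ t ∈ range n, |1 - pg ^ (t + 1)| ≤ 2 := fun t _ => by
    have := abs_sub (1 : ℝ) (pg ^ (t + 1))
    rw [abs_one, abs_pow] at this
    linarith [abs_pg_pow_le_one (t + 1)]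
  have h2 : ∀ k ∈ range n, |goldenRatio - pg ^ k| ≤ 3 := fun k _ => by
    have := abs_sub goldenRatio (pg ^ k)
    rw [abs_of_pos goldenRatio_pos, abs_pow] at this
    linarith [abs_pg_pow_le_one k, golden_bounds.2]
  rw [dProd, qprod, abs_mul, abs_prod, abs_prod]
  refine (mul_le_mul (prod_le_prod (fun t _ => abs_nonneg _) h1)
    (prod_le_prod (fun k _ => abs_nonneg _) h2) (prod_nonneg fun k _ => abs_nonneg _)
    (prod_nonneg fun t _ => by norm_num)).trans (le_of_eq ?_)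
  rw [prod_const, prod_const, card_range, ← mul_pow]
  norm_num

/-- The linear form is small and not zero. -/
theorem form_real_bounds (n : ℕ) (hn : 16 ≤ n) (l d : ℝ) (hd : 0 < d) (h : d * fibL = l) :
    form pg goldenRatio l d n ≠ 0 ∧
      |form pg goldenRatio l d n| ≤ 10 * d * 6 ^ n * |pg| ^ (tri n + n * (n + 1)) := by
  obtain ⟨hxi, hx⟩ := abs_golden_xv n
  have hsmall : |goldenRatio * (pg ^ n)⁻¹|⁻¹ ≤ 1 / 100 := hxi.trans
    ((abs_pg_pow_anti hn).trans ((pow_le_pow_left₀ (abs_nonneg _) abs_pg_bounds.2 16).trans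
      (by norm_num)))
  obtain ⟨j1, j2⟩ := padeJ_bounds n hx hsmall
  obtain ⟨d1, d2⟩ := abs_dProd_real n
  rw [form_real n l d h]
  refine ⟨mul_ne_zero (mul_ne_zero d2 hd.ne') j1, ?_⟩
  rw [abs_mul, abs_mul, abs_of_pos hd]
  refine (mul_le_mul (mul_le_mul_of_nonneg_right d1 hd.le) (j2.trans (mul_le_mul_of_nonneg_left
    (pow_le_pow_left₀ (inv_nonneg.2 (abs_nonneg _)) hxi _) (by positivity))) (abs_nonneg _)
    (by positivity)).trans (le_of_eq ?_)
  rw [← pow_mul, pow_add]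
  ring

end FA.AndreJeannin
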