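import Fermat.Agent.AndreJeannin.Coefficients
import Mathlib.Analysis.SpecificLimits.Normed
import Mathlib.NumberTheory.Real.GoldenRatio
import Mathlib.Tactic.Linarith
import Mathlib.Tactic.Positivity
import Mathlib.Topology.Algebra.InfiniteSum.Real

/-!
# The linear forms at `p = -ψ ^ 2`

With `x = φ / p ^ n` the form `∑_k p ^ k P (p ^ k) / (x - p ^ k)` is tiny and nonzero.
-/

set_option autoImplicit false

noncomputable section

open Finset Real

namespace FA.AndreJeannin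

section Field

variable {K : Type*} [Field K]

/-- The partial sum of `p ^ k / (a - p ^ k)`. -/
def shift (p a : K) (n : ℕ) : K := ∑ k ∈ range n, p ^ k / (a - p ^ k)

/-- The rational part of the Padé form at `x`. -/
def aSum (p x : K) (n : ℕ) : K :=
  ∑ i ∈ range (n + 1), coef p n i * ∑ l ∈ range i, x ^ l / (1 - p ^ (i - l))

/-- The common denominator. -/
def dProd (p a : K) (n : ℕ) : K := qprod p n * ∏ k ∈ range n, (a - p ^ k)

/-- The cleared linear form in `1` and `∑ p ^ k / (a - p ^ k) = l / d`. -/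
def form (p a l d : K) (n : ℕ) : K :=
  dProd p a n * (l * pEval p n (a * (p ^ n)⁻¹) -
    d * (pEval p n (a * (p ^ n)⁻¹) * shift p a n + aSum p (a * (p ^ n)⁻¹) n))

end Field

/-- The base `-ψ ^ 2`. -/
def pg : ℝ := -goldenConj ^ 2

/-- Its inverse `-φ ^ 2`. -/
def qg : ℝ := -goldenRatio ^ 2

theorem pg_mul_qg : pg * qg = 1 := by
  rw [pg, qg, neg_mul_neg, ← mul_pow, goldenConj_mul_goldenRatio]
  norm_num

theorem pg_ne_zero : pg ≠ 0 := left_ne_zero_of_mul_eq_one pg_mul_qg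

theorem qg_eq_inv : qg = pg⁻¹ := eq_inv_of_mul_eq_one_right pg_mul_qg

theorem golden_bounds : 8 / 5 ≤ goldenRatio ∧ goldenRatio ≤ 5 / 3 := by
  have h1 : (11 / 5 : ℝ) ≤ √5 := Real.le_sqrt_of_sq_le (by norm_num)
  have h2 : √5 ≤ (7 / 3 : ℝ) := by rw [Real.sqrt_le_left (by norm_num)]; norm_num
  constructor <;> rw [goldenRatio] <;> linarith

theorem abs_pg : |pg| = goldenConj ^ 2 := by rw [pg, abs_neg, abs_of_nonneg (sq_nonneg _)]

theorem abs_pg_bounds : 1 / 3 ≤ |pg| ∧ |pg| ≤ 2 / 5 := by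
  rw [abs_pg, goldenConj_sq, ← one_sub_goldenConj]
  constructor <;> linarith [golden_bounds.1, golden_bounds.2]

theorem pg_pow_ne_one (m : ℕ) (hm : 0 < m) : pg ^ m ≠ 1 := fun h => by
  have := congrArg abs h
  rw [abs_pow, abs_one] at this
  have := pow_lt_one₀ (abs_nonneg pg) (by linarith [abs_pg_bounds.2]) hm.ne'
  linarith

theorem one_sub_le_prod {ι : Type*} (s : Finset ι) (u : ι → ℝ) (h0 : ∀ i ∈ s, 0 ≤ u i)
    (h1 : ∀ i ∈ s, u i ≤ 1) : 1 - ∑ i ∈ s, u i ≤ ∏ i ∈ s, (1 - u i) := by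
  classical
  induction s using Finset.induction with
  | empty => simp
  | @insert a s ha ih =>
    rw [sum_insert ha, prod_insert ha]
    have := ih (fun i hi => h0 i (mem_insert_of_mem hi)) (fun i hi => h1 i (mem_insert_of_mem hi))
    have hs : 0 ≤ ∑ i ∈ s, u i := sum_nonneg fun i hi => h0 i (mem_insert_of_mem hi)
    nlinarith [h0 a (mem_insert_self a s), h1 a (mem_insert_self a s)]

theorem prod_abs_one_sub_bounds {ι : Type*} (s : Finset ι) (v : ι → ℝ)
    (h : ∑ i ∈ s, |v i| ≤ 2 / 3) :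
    1 / 3 ≤ ∏ i ∈ s, |1 - v i| ∧ ∏ i ∈ s, |1 - v i| ≤ 3 := by
  have hv : ∀ i ∈ s, |v i| ≤ 2 / 3 := fun i hi =>
    (single_le_sum (f := fun i => |v i|) (fun j _ => abs_nonneg _) hi).trans h
  have hlow := one_sub_le_prod s (fun i => |v i|) (fun i _ => abs_nonneg _)
    (fun i hi => (hv i hi).trans (by norm_num))
  have hb : ∀ i ∈ s, 1 - |v i| ≤ |1 - v i| ∧ |1 - v i| ≤ 1 + |v i| := fun i _ =>
    ⟨by simpa using abs_sub_abs_le_abs_sub 1 (v i), by simpa using abs_sub 1 (v i)⟩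
  refine ⟨le_trans (by linarith) (hlow.trans (prod_le_prod (fun i hi => by linarith [hv i hi])
    fun i hi => (hb i hi).1)),
    (prod_le_prod (fun i _ => abs_nonneg _) fun i hi => (hb i hi).2).trans ?_⟩
  have hmul : (∏ i ∈ s, (1 + |v i|)) * ∏ i ∈ s, (1 - |v i|) ≤ 1 := by
    rw [← prod_mul_distrib]
    refine prod_le_one (fun i hi => ?_) fun i hi => ?_ <;>
      nlinarith [hv i hi, abs_nonneg (v i)]
  have hpos : 0 ≤ ∏ i ∈ s, (1 + |v i|) := prod_nonneg fun i _ => by positivity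
  nlinarith

theorem sum_pow_le {r : ℝ} (h0 : 0 ≤ r) (h1 : r ≤ 2 / 5) (n : ℕ) :
    ∑ l ∈ range n, r ^ (l + 1) ≤ 2 / 3 := by
  have h := (summable_geometric_of_lt_one h0 (by linarith)).sum_le_tsum (range n)
    fun i _ => pow_nonneg h0 i
  rw [tsum_geometric_of_lt_one h0 (by linarith)] at h
  have hr : r * (1 - r)⁻¹ ≤ 2 / 3 := by
    rw [← div_eq_mul_inv, div_le_iff₀ (by linarith)]
    linarith
  simp only [pow_succ', ← mul_sum]
  exact (mul_le_mul_of_nonneg_left h h0).trans hr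

theorem abs_pg_pow_le_one (m : ℕ) : |pg| ^ m ≤ 1 :=
  pow_le_one₀ (abs_nonneg _) (by linarith [abs_pg_bounds.2])

theorem abs_pg_pow_anti {a b : ℕ} (h : a ≤ b) : |pg| ^ b ≤ |pg| ^ a :=
  pow_le_pow_of_le_one (abs_nonneg _) (by linarith [abs_pg_bounds.2]) h

/-- The sums `∑ p ^ (k (i + 1)) / (x - p ^ k)`. -/
def pSum (x : ℝ) (i : ℕ) : ℝ := ∑' k : ℕ, pg ^ (k * (i + 1)) / (x - pg ^ k)

/-- `∑ p ^ k / (φ - p ^ k)`, the sum of the inverse Fibonacci numbers up to `√5`. -/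
def fibL : ℝ := ∑' k : ℕ, pg ^ k / (goldenRatio - pg ^ k)

variable {x : ℝ} (hx : 1 < |x|)
include hx

theorem x_sub_ne_zero (k : ℕ) : x - pg ^ k ≠ 0 := fun h => by
  have := abs_pg_pow_le_one k
  rw [sub_eq_zero.1 h, abs_pow] at hx
  linarith

theorem summable_pSum (i : ℕ) : Summable fun k : ℕ => pg ^ (k * (i + 1)) / (x - pg ^ k) := by
  refine Summable.of_norm_bounded ((summable_geometric_of_lt_one (abs_nonneg pg)
    (by linarith [abs_pg_bounds.2])).div_const (|x| - 1)) fun k => ?_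
  rw [Real.norm_eq_abs, abs_div, abs_pow]
  refine div_le_div₀ (pow_nonneg (abs_nonneg _) _) (abs_pg_pow_anti ?_) (by linarith) ?_
  · exact Nat.le_mul_of_pos_right k i.succ_pos
  · have := abs_sub_abs_le_abs_sub x (pg ^ k)
    rw [abs_pow] at this
    linarith [abs_pg_pow_le_one k]

theorem pSum_eq (i : ℕ) :
    pSum x i = x ^ i * pSum x 0 - ∑ l ∈ range i, x ^ l / (1 - pg ^ (i - l)) := by
  induction i with
  | zero => simp
  | succ i ih =>
    have h : ∀ k : ℕ, pg ^ (k * (i + 1 + 1)) / (x - pg ^ k) =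
        x * (pg ^ (k * (i + 1)) / (x - pg ^ k)) - (pg ^ (i + 1)) ^ k := fun k => by
      field_simp [x_sub_ne_zero hx k]
      ring
    have hp : |pg ^ (i + 1)| < 1 := by
      rw [abs_pow]
      exact pow_lt_one₀ (abs_nonneg _) (by linarith [abs_pg_bounds.2]) i.succ_ne_zero
    rw [pSum, tsum_congr h, ((summable_pSum hx i).mul_left x).tsum_sub
      (summable_geometric_of_norm_lt_one hp), tsum_mul_left, tsum_geometric_of_norm_lt_one hp,
      ← pSum, ih, sum_range_succ', mul_sub, mul_sum, pow_zero, tsub_zero, one_div, sub_sub,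
      pow_succ' x, mul_assoc]
    congr 2
    refine sum_congr rfl fun l _ => ?_
    rw [Nat.add_sub_add_right, pow_succ', mul_div_assoc]

theorem hasSum_pSum (i : ℕ) :
    HasSum (fun j : ℕ => x⁻¹ ^ (j + 1) / (1 - pg ^ (i + j + 1))) (pSum x i) := by
  have hX : |x⁻¹| < 1 := by rw [abs_inv]; exact inv_lt_one_of_one_lt₀ hx
  have hs : Summable fun z : ℕ × ℕ => (pg ^ (i + z.2 + 1)) ^ z.1 * x⁻¹ ^ (z.2 + 1) := by
    refine Summable.of_norm_bounded (Summable.mul_of_nonneg (summable_geometric_of_lt_one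
      (abs_nonneg pg) (by linarith [abs_pg_bounds.2])) (((summable_geometric_of_lt_one
      (abs_nonneg x⁻¹) hX).mul_left |x⁻¹|)) (fun k => by positivity) fun j => by positivity)
      fun z => ?_
    rw [Real.norm_eq_abs, abs_mul, abs_pow, abs_pow, abs_pow, ← pow_succ', ← pow_mul]
    exact mul_le_mul_of_nonneg_right
      (abs_pg_pow_anti (Nat.le_mul_of_pos_left _ (Nat.succ_pos _))) (by positivity)
  have h1 : ∀ k : ℕ, HasSum (fun j => (pg ^ (i + j + 1)) ^ k * x⁻¹ ^ (j + 1))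
      (pg ^ (k * (i + 1)) / (x - pg ^ k)) := fun k => by
    have hq : |pg ^ k * x⁻¹| < 1 := by
      rw [abs_mul, abs_pow]
      calc |pg| ^ k * |x⁻¹| ≤ 1 * |x⁻¹| :=
            mul_le_mul_of_nonneg_right (abs_pg_pow_le_one k) (abs_nonneg _)
        _ < 1 := by rwa [one_mul]
    have h := (hasSum_geometric_of_abs_lt_one hq).mul_left (pg ^ (k * (i + 1)) * x⁻¹)
    have e : pg ^ (k * (i + 1)) / (x - pg ^ k) =
        pg ^ (k * (i + 1)) * x⁻¹ * (1 - pg ^ k * x⁻¹)⁻¹ := by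
      have h0 : x ≠ 0 := fun h => by rw [h, abs_zero] at hx; linarith
      rw [mul_assoc, ← mul_inv, mul_sub, mul_one, mul_left_comm, mul_inv_cancel₀ h0, mul_one,
        div_eq_mul_inv]
    rw [e]
    exact h.congr_fun fun j => by ring
  have hv := hs.hasSum.prod_fiberwise h1
  have h2 : ∀ j : ℕ, HasSum (fun k => (pg ^ (i + j + 1)) ^ k * x⁻¹ ^ (j + 1))
      (x⁻¹ ^ (j + 1) / (1 - pg ^ (i + j + 1))) := fun j => by
    have hp : |pg ^ (i + j + 1)| < 1 := by
      rw [abs_pow]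
      exact pow_lt_one₀ (abs_nonneg _) (by linarith [abs_pg_bounds.2]) (Nat.succ_ne_zero _)
    simpa [div_eq_inv_mul] using (hasSum_geometric_of_abs_lt_one hp).mul_right (x⁻¹ ^ (j + 1))
  have hw := ((Equiv.prodComm ℕ ℕ).hasSum_iff.2 hs.hasSum).prod_fiberwise h2
  rwa [pSum, hv.tsum_eq]

end FA.AndreJeannin
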